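/-
Fermat/Agent/Jac/PullbackSec70/Affine.lean  (helper70)

JAC programme (S25), brick M4 "PullbackSections", affine core: for `φ : R ⟶ S` and a quasi-coherent
module `M'` on `Spec R`, the canonical comparison map
  `gammaBC φ M' : S ⊗[R] Γ(M') ⟶ Γ((Spec φ)^* M')`
(adjoint, under extension/restriction of scalars, of the unit of the pullback-pushforward
adjunction on global sections) is an isomorphism.  Proof: `TildePullback.pullbackTildeIso` is
`leftAdjointUniq` of two composite adjunctions, hence compatible with their units.
-/
import Fermat.Agent.Jac.PullbackSec70.Basic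
import Fermat.Agent.Jac.TildePullback

set_option autoImplicit false

universe u

open CategoryTheory Limits AlgebraicGeometry TopologicalSpace

namespace Fermat.Agent.Jac.PullbackSec70

open AlgebraicGeometry.Scheme

variable {R S : CommRingCat.{u}} (φ : R ⟶ S)

/-- The key compatibility of `TildePullback.pullbackTildeIso` with the adjunction units. -/
lemma pullbackTildeIso_unit (N : ModuleCat.{u} R) :
    (tilde.adjunction (R := R)).unit.app N ≫ (moduleSpecΓFunctor (R := R)).map
      (pbUnit (Spec.map φ) ((tilde.functor R).obj N) ≫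
        (Modules.pushforward (Spec.map φ)).map ((TildePullback.pullbackTildeIso φ).hom.app N)) =
    (ModuleCat.extendRestrictScalarsAdj φ.hom).unit.app N ≫
      (ModuleCat.restrictScalars φ.hom).map
        ((tilde.adjunction (R := S)).unit.app ((ModuleCat.extendScalars φ.hom).obj N)) ≫
      (TildePullback.pushforwardΓIso φ).inv.app _ := by
  have := Adjunction.homEquiv_leftAdjointUniq_hom_app
    ((tilde.adjunction (R := R)).comp (Scheme.Modules.pullbackPushforwardAdjunction (Spec.map φ)))
    (((ModuleCat.extendRestrictScalarsAdj φ.hom).comp (tilde.adjunction (R := S))).ofNatIsoRight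
      (TildePullback.pushforwardΓIso φ).symm) N
  rw [Adjunction.comp_homEquiv] at this
  simp only [Adjunction.ofNatIsoRight_unit] at this
  simp only [Equiv.trans_apply, Adjunction.homEquiv_unit, NatTrans.comp_app,
    Functor.whiskerLeft_app, Iso.symm_hom, Adjunction.comp_unit_app, Category.assoc] at this
  exact this

/-- The unit of the pullback-pushforward adjunction on global sections, as an `R`-linear map
`Γ(M') ⟶ Γ(g^* M')` (restriction of scalars along `φ`), `g = Spec.map φ`. -/
noncomputable def gammaUnit (M' : (Spec R).Modules) :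
    (moduleSpecΓFunctor (R := R)).obj M' ⟶ (ModuleCat.restrictScalars φ.hom).obj
      ((moduleSpecΓFunctor (R := S)).obj ((Modules.pullback (Spec.map φ)).obj M')) :=
  (moduleSpecΓFunctor (R := R)).map (pbUnit (Spec.map φ) M') ≫
    (TildePullback.pushforwardΓIso φ).hom.app _

lemma gammaUnit_naturality {M₁ M₂ : (Spec R).Modules} (c : M₁ ⟶ M₂) :
    (moduleSpecΓFunctor (R := R)).map c ≫ gammaUnit φ M₂ =
      gammaUnit φ M₁ ≫ (ModuleCat.restrictScalars φ.hom).map
        ((moduleSpecΓFunctor (R := S)).map ((Modules.pullback (Spec.map φ)).map c)) := by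
  unfold gammaUnit
  rw [← Category.assoc, ← Functor.map_comp, pbUnit_naturality, Functor.map_comp, Category.assoc,
    Category.assoc]
  congr 1

/-- The base change comparison map `S ⊗[R] Γ(M') ⟶ Γ(g^* M')`. -/
noncomputable def gammaBC (M' : (Spec R).Modules) :
    (ModuleCat.extendScalars φ.hom).obj ((moduleSpecΓFunctor (R := R)).obj M') ⟶
      (moduleSpecΓFunctor (R := S)).obj ((Modules.pullback (Spec.map φ)).obj M') :=
  ((ModuleCat.extendRestrictScalarsAdj φ.hom).homEquiv _ _).symm (gammaUnit φ M')

lemma gammaBC_naturality {M₁ M₂ : (Spec R).Modules} (c : M₁ ⟶ M₂) :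
    (ModuleCat.extendScalars φ.hom).map ((moduleSpecΓFunctor (R := R)).map c) ≫ gammaBC φ M₂ =
      gammaBC φ M₁ ≫
        (moduleSpecΓFunctor (R := S)).map ((Modules.pullback (Spec.map φ)).map c) := by
  unfold gammaBC
  rw [← Adjunction.homEquiv_naturality_left_symm, gammaUnit_naturality,
    Adjunction.homEquiv_naturality_right_symm]

lemma gammaBC_tilde (N : ModuleCat.{u} R) :
    (ModuleCat.extendScalars φ.hom).map ((tilde.adjunction (R := R)).unit.app N) ≫
      gammaBC φ ((tilde.functor R).obj N) ≫
      (moduleSpecΓFunctor (R := S)).map ((TildePullback.pullbackTildeIso φ).hom.app N) =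
    (tilde.adjunction (R := S)).unit.app ((ModuleCat.extendScalars φ.hom).obj N) := by
  have h := pullbackTildeIso_unit φ N
  -- move the identification `pushforwardΓIso` to the left-hand side
  have h' : (tilde.adjunction (R := R)).unit.app N ≫ gammaUnit φ ((tilde.functor R).obj N) ≫
      (ModuleCat.restrictScalars φ.hom).map
        ((moduleSpecΓFunctor (R := S)).map ((TildePullback.pullbackTildeIso φ).hom.app N)) =
      (ModuleCat.extendRestrictScalarsAdj φ.hom).unit.app N ≫
        (ModuleCat.restrictScalars φ.hom).map
          ((tilde.adjunction (R := S)).unit.app ((ModuleCat.extendScalars φ.hom).obj N)) := by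
    have h2 := congrArg (fun z => z ≫ (TildePullback.pushforwardΓIso φ).hom.app _) h
    simp only [Category.assoc, Functor.comp_obj, Iso.inv_hom_id_app, Category.comp_id,
      Functor.map_comp] at h2
    rw [← h2]
    unfold gammaUnit
    simp only [Category.assoc]
    congr 2
  have h3 := congrArg ((ModuleCat.extendRestrictScalarsAdj φ.hom).homEquiv _ _).symm h'
  rw [Adjunction.homEquiv_naturality_left_symm, Adjunction.homEquiv_naturality_right_symm] at h3
  rw [show (ModuleCat.extendRestrictScalarsAdj φ.hom).unit.app N ≫
        (ModuleCat.restrictScalars φ.hom).map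
          ((tilde.adjunction (R := S)).unit.app ((ModuleCat.extendScalars φ.hom).obj N)) =
      (ModuleCat.extendRestrictScalarsAdj φ.hom).homEquiv _ _
        ((tilde.adjunction (R := S)).unit.app ((ModuleCat.extendScalars φ.hom).obj N)) from
      (Adjunction.homEquiv_unit _ _ _ _).symm] at h3
  exact h3.trans (Equiv.symm_apply_apply _ _)

/-- For `M' = N~` the base change comparison map is an isomorphism. -/
theorem isIso_gammaBC_tilde (N : ModuleCat.{u} R) :
    IsIso (gammaBC φ ((tilde.functor R).obj N)) := by
  have h := gammaBC_tilde φ N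
  have h1 : IsIso ((ModuleCat.extendScalars φ.hom).map ((tilde.adjunction (R := R)).unit.app N) ≫
      gammaBC φ ((tilde.functor R).obj N) ≫
      (moduleSpecΓFunctor (R := S)).map ((TildePullback.pullbackTildeIso φ).hom.app N)) := by
    rw [h]; infer_instance
  have h2 : IsIso (gammaBC φ ((tilde.functor R).obj N) ≫
      (moduleSpecΓFunctor (R := S)).map ((TildePullback.pullbackTildeIso φ).hom.app N)) :=
    IsIso.of_isIso_comp_left
      ((ModuleCat.extendScalars φ.hom).map ((tilde.adjunction (R := R)).unit.app N)) _
  exact IsIso.of_isIso_comp_right _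
    ((moduleSpecΓFunctor (R := S)).map ((TildePullback.pullbackTildeIso φ).hom.app N))

/-- For quasi-coherent `M'` on `Spec R` the base change comparison map
`S ⊗[R] Γ(M') ⟶ Γ((Spec φ)^* M')` is an isomorphism. -/
theorem isIso_gammaBC (M' : (Spec R).Modules) [M'.IsQuasicoherent] : IsIso (gammaBC φ M') := by
  have hc : IsIso (Scheme.Modules.fromTildeΓ M') := inferInstance
  have h := gammaBC_naturality φ (Scheme.Modules.fromTildeΓ M')
  have h0 := isIso_gammaBC_tilde φ ((modulesSpecToSheaf.obj M').presheaf.obj (.op ⊤))
  have h1 : IsIso ((ModuleCat.extendScalars φ.hom).map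
      ((moduleSpecΓFunctor (R := R)).map (Scheme.Modules.fromTildeΓ M')) ≫ gammaBC φ M') := by
    rw [h]
    exact IsIso.comp_isIso' h0 inferInstance
  exact IsIso.of_isIso_comp_left ((ModuleCat.extendScalars φ.hom).map
      ((moduleSpecΓFunctor (R := R)).map (Scheme.Modules.fromTildeΓ M'))) _

end Fermat.Agent.Jac.PullbackSec70
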