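/-
Fermat/Agent/Jac/PullbackSec70/Basic.lean  (helper70)

JAC programme (S25), brick M4 "PullbackSections": the canonical map from sections of a module `M`
on `X` over `U` to sections of the pullback `f^* M` over an open `V ≤ f ⁻¹ᵁ U` of `Y`
(`f : Y ⟶ X`): the unit of the pullback-pushforward adjunction followed by restriction.
Naturality in the module, compatibility with restriction maps, semilinearity.
-/
import Mathlib.AlgebraicGeometry.Modules.Sheaf
import Mathlib.AlgebraicGeometry.Modules.Tilde

set_option autoImplicit false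

universe u

open CategoryTheory Limits AlgebraicGeometry TopologicalSpace

namespace Fermat.Agent.Jac.PullbackSec70

open AlgebraicGeometry.Scheme

variable {X Y : Scheme.{u}} (f : Y ⟶ X)

/-- Morphisms of modules commute with restriction of sections (elementwise). -/
lemma app_map {Z : Scheme.{u}} {F G : Z.Modules} (φ : F ⟶ G) {W W' : Z.Opens} (i : W' ⟶ W)
    (x : Γ(F, W)) :
    φ.app W' (F.presheaf.map i.op x) = G.presheaf.map i.op (φ.app W x) :=
  ConcreteCategory.congr_hom (φ.mapPresheaf.naturality i.op) x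

/-- Composition of restriction maps (elementwise). -/
lemma map_map {Z : Scheme.{u}} (F : Z.Modules) {W W' W'' : Z.Opens} (i : W' ⟶ W) (j : W'' ⟶ W')
    (k : W'' ⟶ W) (x : Γ(F, W)) :
    F.presheaf.map j.op (F.presheaf.map i.op x) = F.presheaf.map k.op x := by
  rw [← ConcreteCategory.comp_apply, ← Functor.map_comp, ← op_comp]
  rfl

/-- The unit `M ⟶ f_* f^* M` of the pullback-pushforward adjunction. -/
noncomputable def pbUnit (M : X.Modules) :
    M ⟶ (Modules.pushforward f).obj ((Modules.pullback f).obj M) :=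
  (Modules.pullbackPushforwardAdjunction f).unit.app M

lemma pbUnit_naturality {M M' : X.Modules} (ψ : M ⟶ M') :
    ψ ≫ pbUnit f M' = pbUnit f M ≫ (Modules.pushforward f).map ((Modules.pullback f).map ψ) :=
  (Modules.pullbackPushforwardAdjunction f).unit.naturality ψ

/-- The unit on sections over `U`, as a map to sections of `f^* M` over `f ⁻¹ᵁ U`. -/
noncomputable def pbUnitSec (M : X.Modules) (U : X.Opens) :
    Γ(M, U) →+ Γ((Modules.pullback f).obj M, f ⁻¹ᵁ U) :=
  ((pbUnit f M).app U).hom

/-- The canonical map `Γ(M, U) → Γ(f^* M, V)` for `V ≤ f ⁻¹ᵁ U`: the unit of the adjunction on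
sections over `U`, followed by restriction to `V`. -/
noncomputable def pbSec (M : X.Modules) (U : X.Opens) (V : Y.Opens) (h : V ≤ f ⁻¹ᵁ U) :
    Γ(M, U) →+ Γ((Modules.pullback f).obj M, V) :=
  (((Modules.pullback f).obj M).presheaf.map (homOfLE h).op).hom.comp (pbUnitSec f M U)

lemma pbSec_apply (M : X.Modules) (U : X.Opens) (V : Y.Opens) (h : V ≤ f ⁻¹ᵁ U) (x : Γ(M, U)) :
    pbSec f M U V h x =
      ((Modules.pullback f).obj M).presheaf.map (homOfLE h).op (pbUnitSec f M U x) := rfl

/-- `pbUnitSec` is natural in the module. -/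
lemma pbUnitSec_naturality {M M' : X.Modules} (ψ : M ⟶ M') (U : X.Opens) (x : Γ(M, U)) :
    pbUnitSec f M' U (ψ.app U x) =
      ((Modules.pullback f).map ψ).app (f ⁻¹ᵁ U) (pbUnitSec f M U x) := by
  have h1 := congrArg (fun g => Modules.Hom.app g U) (pbUnit_naturality f ψ)
  exact ConcreteCategory.congr_hom h1 x

/-- `pbSec` is natural in the module. -/
lemma pbSec_naturality {M M' : X.Modules} (ψ : M ⟶ M') (U : X.Opens) (V : Y.Opens)
    (h : V ≤ f ⁻¹ᵁ U) (x : Γ(M, U)) :
    pbSec f M' U V h (ψ.app U x) = ((Modules.pullback f).map ψ).app V (pbSec f M U V h x) := by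
  rw [pbSec_apply, pbSec_apply, pbUnitSec_naturality, app_map]

/-- `pbUnitSec` commutes with restriction maps. -/
lemma pbUnitSec_res (M : X.Modules) {U U' : X.Opens} (iU : U' ⟶ U) (x : Γ(M, U)) :
    pbUnitSec f M U' (M.presheaf.map iU.op x) =
      ((Modules.pullback f).obj M).presheaf.map ((Opens.map f.base).map iU).op
        (pbUnitSec f M U x) :=
  app_map (pbUnit f M) iU x

/-- `pbSec` commutes with restriction maps. -/
lemma pbSec_res (M : X.Modules) {U U' : X.Opens} {V V' : Y.Opens} (h : V ≤ f ⁻¹ᵁ U)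
    (h' : V' ≤ f ⁻¹ᵁ U') (iU : U' ⟶ U) (iV : V' ⟶ V) (x : Γ(M, U)) :
    pbSec f M U' V' h' (M.presheaf.map iU.op x) =
      ((Modules.pullback f).obj M).presheaf.map iV.op (pbSec f M U V h x) := by
  rw [pbSec_apply, pbSec_apply, pbUnitSec_res, map_map _ _ _ (homOfLE (iV.le.trans h)),
    map_map _ _ _ (homOfLE (iV.le.trans h))]

/-- `pbUnitSec` is semilinear with respect to `f.app U`. -/
lemma pbUnitSec_smul (M : X.Modules) (U : X.Opens) (r : Γ(X, U)) (x : Γ(M, U)) :
    pbUnitSec f M U (r • x) = (f.app U).hom r • pbUnitSec f M U x :=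
  Modules.Hom.app_smul (pbUnit f M) r x

/-- `pbSec` is semilinear with respect to `f.appLE U V h`. -/
lemma pbSec_smul (M : X.Modules) (U : X.Opens) (V : Y.Opens) (h : V ≤ f ⁻¹ᵁ U) (r : Γ(X, U))
    (x : Γ(M, U)) :
    pbSec f M U V h (r • x) = (f.appLE U V h).hom r • pbSec f M U V h x := by
  rw [pbSec_apply, pbSec_apply, pbUnitSec_smul, Modules.map_smul]
  rfl

end Fermat.Agent.Jac.PullbackSec70
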