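/-
Fermat/Agent/Jac/PullbackSec70/Square.lean  (helper70)

JAC programme (S25), brick M4 "PullbackSections", localisation step: for a commutative square
`b ≫ f = f' ≫ a` with `a : X' ⟶ X`, `b : Y' ⟶ Y` open immersions,
  `restrictPullbackIso : pullback f ⋙ restrictFunctor b ≅ restrictFunctor a ⋙ pullback f'`
(uniqueness of left adjoints), together with its compatibility with the canonical maps on
sections (`restrictPullbackIso_pbUnitSec`).
-/
import Fermat.Agent.Jac.PullbackSec70.Basic

set_option autoImplicit false

universe u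

open CategoryTheory Limits AlgebraicGeometry TopologicalSpace

namespace Fermat.Agent.Jac.PullbackSec70

open AlgebraicGeometry.Scheme

variable {X Y X' Y' : Scheme.{u}} (f : Y ⟶ X) (a : X' ⟶ X) (b : Y' ⟶ Y) (f' : Y' ⟶ X')
  [IsOpenImmersion a] [IsOpenImmersion b] (comm : b ≫ f = f' ≫ a)

/-- The adjunction `f^* ⋙ b^! ⊣ b_* ⋙ f_*`. -/
noncomputable def adjL : Modules.pullback f ⋙ Modules.restrictFunctor b ⊣
    Modules.pushforward b ⋙ Modules.pushforward f :=
  (Modules.pullbackPushforwardAdjunction f).comp (Modules.restrictAdjunction b)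

/-- The adjunction `a^! ⋙ f'^* ⊣ f'_* ⋙ a_*`. -/
noncomputable def adjR : Modules.restrictFunctor a ⋙ Modules.pullback f' ⊣
    Modules.pushforward f' ⋙ Modules.pushforward a :=
  (Modules.restrictAdjunction a).comp (Modules.pullbackPushforwardAdjunction f')

include comm in
/-- The identification of the two composite pushforwards. -/
noncomputable def pushIso : Modules.pushforward b ⋙ Modules.pushforward f ≅
    Modules.pushforward f' ⋙ Modules.pushforward a :=
  Modules.pushforwardComp b f ≪≫ Modules.pushforwardCongr comm ≪≫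
    (Modules.pushforwardComp f' a).symm

/-- Base change for restriction to open subschemes: `(f^* M)|_{Y'} ≅ f'^* (M|_{X'})`. -/
noncomputable def restrictPullbackIso : Modules.pullback f ⋙ Modules.restrictFunctor b ≅
    Modules.restrictFunctor a ⋙ Modules.pullback f' :=
  (adjL f b).leftAdjointUniq ((adjR a f').ofNatIsoRight (pushIso f a b f' comm).symm)

lemma restrictPullbackIso_unit (M : X.Modules) :
    (adjL f b).unit.app M ≫ (Modules.pushforward b ⋙ Modules.pushforward f).map
      ((restrictPullbackIso f a b f' comm).hom.app M) =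
    (adjR a f').unit.app M ≫ (pushIso f a b f' comm).inv.app _ := by
  have := Adjunction.unit_leftAdjointUniq_hom_app (adjL f b)
    ((adjR a f').ofNatIsoRight (pushIso f a b f' comm).symm) M
  simp only [Adjunction.ofNatIsoRight_unit, NatTrans.comp_app, Functor.whiskerLeft_app,
    Iso.symm_hom] at this
  exact this

/-- The compatibility of `restrictPullbackIso` with the canonical maps on sections. -/
lemma restrictPullbackIso_pbUnitSec (M : X.Modules) (U : X.Opens) (x : Γ(M, U)) :
    ((restrictPullbackIso f a b f' comm).hom.app M).app (b ⁻¹ᵁ f ⁻¹ᵁ U)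
      (((Modules.pullback f).obj M).presheaf.map (homOfLE (b.image_preimage_le (f ⁻¹ᵁ U))).op
        (pbUnitSec f M U x)) =
    ((Modules.pullback f').obj (M.restrict a)).presheaf.map
      (eqToHom (show b ⁻¹ᵁ f ⁻¹ᵁ U = f' ⁻¹ᵁ a ⁻¹ᵁ U by
        rw [← Scheme.Hom.comp_preimage, ← Scheme.Hom.comp_preimage, comm])).op
      (pbUnitSec f' (M.restrict a) (a ⁻¹ᵁ U)
        (M.presheaf.map (homOfLE (a.image_preimage_le U)).op x)) := by
  have h := congrArg (fun g => Modules.Hom.app g U) (restrictPullbackIso_unit f a b f' comm M)
  have h' := ConcreteCategory.congr_hom h x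
  exact h'

end Fermat.Agent.Jac.PullbackSec70
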