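/-
Fermat/Agent/Jac/PullbackSec70/Main.lean  (helper70)

JAC programme (S25), brick M4 "PullbackSections", main theorem: for `f : Y ⟶ X`, a quasi-coherent
module `M` on `X`, affine opens `U ⊆ X`, `V ⊆ Y` with `V ≤ f ⁻¹ᵁ U`, the canonical map
  `pbSec f M U V h : Γ(M, U) → Γ(f^* M, V)`
exhibits `Γ(f^* M, V)` as the base change `Γ(Y, V) ⊗[Γ(X, U)] Γ(M, U)`
(`isBaseChange_pbSecₗ`, `exists_equiv_pbSec`).
Proof: restrict to `Spec Γ(X, U)`, `Spec Γ(Y, V)` (`Square.restrictPullbackIso`), then use the affine
statement `Affine.isIso_gammaBC`.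
-/
import Fermat.Agent.Jac.PullbackSec70.Affine
import Fermat.Agent.Jac.PullbackSec70.Square
import Fermat.Agent.Jac.AffineSections40

set_option autoImplicit false
set_option linter.style.haveILetI false

universe u

open CategoryTheory Limits AlgebraicGeometry TopologicalSpace TensorProduct

namespace Fermat.Agent.Jac.PullbackSec70

section Bridge

variable {R S : Type u} [CommRing R] [CommRing S] [Algebra R S] (N : ModuleCat.{u} R)

set_option backward.isDefEq.respectTransparency false in
/-- `S` with the `R`-module structure used by `ModuleCat.extendScalars` is `S` with its algebra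
module structure. -/
noncomputable def resSelfEquiv :
    ((ModuleCat.restrictScalars (algebraMap R S)).obj (ModuleCat.of S S)) ≃ₗ[R] S where
  toFun x := x
  invFun x := x
  left_inv _ := rfl
  right_inv _ := rfl
  map_add' _ _ := rfl
  map_smul' r x := by
    have h := ModuleCat.restrictScalars.smul_def (algebraMap R S) (M := ModuleCat.of S S) r x
    simp only [RingHom.id_apply]
    rw [Algebra.smul_def]
    exact h

set_option backward.isDefEq.respectTransparency false in
/-- Mathlib's `ModuleCat.extendScalars` along `algebraMap R S` is the usual base change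
`S ⊗[R] N`. -/
noncomputable def extEquivTensor :
    ((ModuleCat.extendScalars (algebraMap R S)).obj N) ≃ₗ[S] S ⊗[R] N :=
  { TensorProduct.congr (resSelfEquiv (R := R) (S := S)) (LinearEquiv.refl R N) with
    map_smul' := fun s x => by
      induction x using TensorProduct.induction_on with
      | zero =>
        simp only [AddHom.toFun_eq_coe, LinearMap.coe_toAddHom, LinearEquiv.coe_coe,
          RingHom.id_apply]
        rw [smul_zero, map_zero, smul_zero]
      | tmul a n => rfl
      | add x y hx hy =>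
        simp only [AddHom.toFun_eq_coe, LinearMap.coe_toAddHom, LinearEquiv.coe_coe,
          RingHom.id_apply] at hx hy ⊢
        rw [smul_add, map_add, hx, hy, map_add, smul_add] }

open ChangeOfRings in
lemma extEquivTensor_symm_one_tmul (m : N) :
    (extEquivTensor (S := S) N).symm ((1 : S) ⊗ₜ[R] m) = (1 : S) ⊗ₜ[R, algebraMap R S] m := rfl

variable {N}
variable {B : Type u} [AddCommGroup B] [Module S B] [Module R B] [IsScalarTower R S B]

open ChangeOfRings in
/-- If an `S`-linear isomorphism out of the categorical extension of scalars restricts to `g`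
along `m ↦ 1 ⊗ m`, then `g` is a base change. -/
theorem isBaseChange_of_isIso (g : N →ₗ[R] B)
    (g' : (ModuleCat.extendScalars (algebraMap R S)).obj N ⟶ ModuleCat.of S B) [IsIso g']
    (hg : ∀ m : N, g'.hom ((1 : S) ⊗ₜ[R, algebraMap R S] m) = g m) : IsBaseChange S g :=
  IsBaseChange.of_equiv ((extEquivTensor (S := S) N).symm ≪≫ₗ (asIso g').toLinearEquiv)
    (fun x => by
      rw [LinearEquiv.trans_apply, extEquivTensor_symm_one_tmul]
      exact hg x)

end Bridge

open AlgebraicGeometry.Scheme Fermat.Agent.Jac.ModGlue88 Fermat.Agent.Jac.AffineSections40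

variable {X Y : Scheme.{u}} (f : Y ⟶ X) (M : X.Modules) {U : X.Opens} {V : Y.Opens}
  (hU : IsAffineOpen U) (hV : IsAffineOpen V) (h : V ≤ f ⁻¹ᵁ U)

/-- The commutative square `hV.fromSpec ≫ f = Spec.map (f.appLE U V h) ≫ hU.fromSpec`. -/
lemma fromSpec_comm :
    hV.fromSpec ≫ f = Spec.map (f.appLE U V h) ≫ hU.fromSpec :=
  (IsAffineOpen.SpecMap_appLE_fromSpec f hU hV h).symm

/-- The base change isomorphism `(f^* M)|_{Spec Γ(Y,V)} ≅ (Spec φ)^* (M|_{Spec Γ(X,U)})`. -/
noncomputable def xiHom :
    ((Modules.pullback f).obj M).restrict hV.fromSpec ⟶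
      (Modules.pullback (Spec.map (f.appLE U V h))).obj (M.restrict hU.fromSpec) :=
  (restrictPullbackIso f hU.fromSpec hV.fromSpec (Spec.map (f.appLE U V h))
    (fromSpec_comm f hU hV h)).hom.app M

instance isIso_xiHom : IsIso (xiHom f M hU hV h) := by unfold xiHom; infer_instance

lemma top_le_preimage_fromSpec : (⊤ : (Spec Γ(X, U)).Opens) ≤ hU.fromSpec ⁻¹ᵁ U :=
  le_of_eq hU.fromSpec_preimage_self.symm

include h in
lemma top_le_preimage_preimage_fromSpec :
    (⊤ : (Spec Γ(Y, V)).Opens) ≤ hV.fromSpec ⁻¹ᵁ f ⁻¹ᵁ U := by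
  rw [← hV.fromSpec_preimage_self]
  exact hV.fromSpec.preimage_mono h

/-- `secEquivTop` of a restricted section (left column of the key square). -/
lemma secEquivTop_pbSec (x : Γ(M, U)) :
    secEquivTop hV ((Modules.pullback f).obj M) (pbSec f M U V h x) =
      (((Modules.pullback f).obj M).restrict hV.fromSpec).presheaf.map
        (homOfLE (top_le_preimage_preimage_fromSpec f hV h)).op
        (((Modules.pullback f).obj M).presheaf.map
          (homOfLE (hV.fromSpec.image_preimage_le (f ⁻¹ᵁ U))).op (pbUnitSec f M U x)) := by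
  have hle : hV.fromSpec ''ᵁ ⊤ ≤ f ⁻¹ᵁ U := (le_of_eq (fromSpec_image_top hV)).trans h
  exact (map_map ((Modules.pullback f).obj M) (homOfLE h)
      (homOfLE (le_of_eq (fromSpec_image_top hV))) (homOfLE hle) (pbUnitSec f M U x)).trans
    (map_map ((Modules.pullback f).obj M) (homOfLE (hV.fromSpec.image_preimage_le (f ⁻¹ᵁ U)))
      (hV.fromSpec.opensFunctor.map (homOfLE (top_le_preimage_preimage_fromSpec f hV h)))
      (homOfLE hle) (pbUnitSec f M U x)).symm

/-- `secEquivTop` as a restriction (right column of the key square). -/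
lemma secEquivTop_eq_map (x : Γ(M, U)) :
    secEquivTop hU M x =
      (M.restrict hU.fromSpec).presheaf.map (homOfLE (top_le_preimage_fromSpec hU)).op
        (M.presheaf.map (homOfLE (hU.fromSpec.image_preimage_le U)).op x) := by
  exact (map_map M (homOfLE (hU.fromSpec.image_preimage_le U))
      (hU.fromSpec.opensFunctor.map (homOfLE (top_le_preimage_fromSpec hU)))
      (homOfLE (le_of_eq (fromSpec_image_top hU))) x).symm

/-- The key square, elementwise. -/
lemma xiHom_secEquivTop (x : Γ(M, U)) :
    (xiHom f M hU hV h).app ⊤ (secEquivTop hV ((Modules.pullback f).obj M) (pbSec f M U V h x)) =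
      pbUnitSec (Spec.map (f.appLE U V h)) (M.restrict hU.fromSpec) ⊤ (secEquivTop hU M x) := by
  have key := restrictPullbackIso_pbUnitSec f hU.fromSpec hV.fromSpec (Spec.map (f.appLE U V h))
    (fromSpec_comm f hU hV h) M U x
  have key2 := congrArg (fun y => ((Modules.pullback (Spec.map (f.appLE U V h))).obj
    (M.restrict hU.fromSpec)).presheaf.map
      (homOfLE (top_le_preimage_preimage_fromSpec f hV h)).op y) key
  dsimp only at key2
  have e1 := app_map (xiHom f M hU hV h) (homOfLE (top_le_preimage_preimage_fromSpec f hV h))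
      (((Modules.pullback f).obj M).presheaf.map
        (homOfLE (hV.fromSpec.image_preimage_le (f ⁻¹ᵁ U))).op (pbUnitSec f M U x))
  rw [secEquivTop_pbSec, secEquivTop_eq_map]
  refine e1.trans (key2.trans ?_)
  refine Eq.trans ?_ (pbUnitSec_res (Spec.map (f.appLE U V h)) (M.restrict hU.fromSpec)
    (homOfLE (top_le_preimage_fromSpec hU))
    (M.presheaf.map (homOfLE (hU.fromSpec.image_preimage_le U)).op x)).symm
  exact map_map _ _ _ _ _

/-- `pbSec` as a morphism of `Γ(X, U)`-modules. -/
noncomputable def pbSecHom :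
    ModuleCat.of Γ(X, U) Γ(M, U) ⟶ (ModuleCat.restrictScalars (f.appLE U V h).hom).obj
      (ModuleCat.of Γ(Y, V) Γ((Modules.pullback f).obj M, V)) :=
  ModuleCat.ofHom (Y := (ModuleCat.restrictScalars (f.appLE U V h).hom).obj
      (ModuleCat.of Γ(Y, V) Γ((Modules.pullback f).obj M, V)))
    { toFun := pbSec f M U V h
      map_add' := (pbSec f M U V h).map_add
      map_smul' := pbSec_smul f M U V h }

/-- The comparison map `Γ(Y, V) ⊗[Γ(X, U)] Γ(M, U) ⟶ Γ(f^* M, V)`. -/
noncomputable def pbSecBC :
    (ModuleCat.extendScalars (f.appLE U V h).hom).obj (ModuleCat.of Γ(X, U) Γ(M, U)) ⟶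
      ModuleCat.of Γ(Y, V) Γ((Modules.pullback f).obj M, V) :=
  ((ModuleCat.extendRestrictScalarsAdj (f.appLE U V h).hom).homEquiv _ _).symm (pbSecHom f M h)

/-- `Γ(M, U) ≅ Γ(M|_{Spec Γ(X, U)}, ⊤)`. -/
noncomputable def rhoIso :
    ModuleCat.of Γ(X, U) Γ(M, U) ≅
      (moduleSpecΓFunctor (R := Γ(X, U))).obj (M.restrict hU.fromSpec) :=
  (secEquivTop hU M).toModuleIso

/-- `Γ(f^* M, V) ≅ Γ((Spec φ)^* (M|_{Spec Γ(X, U)}), ⊤)`. -/
noncomputable def sigmaIso :
    ModuleCat.of Γ(Y, V) Γ((Modules.pullback f).obj M, V) ≅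
      (moduleSpecΓFunctor (R := Γ(Y, V))).obj
        ((Modules.pullback (Spec.map (f.appLE U V h))).obj (M.restrict hU.fromSpec)) :=
  (secEquivTop hV ((Modules.pullback f).obj M)).toModuleIso ≪≫
    (moduleSpecΓFunctor (R := Γ(Y, V))).mapIso (@asIso _ _ _ _ (xiHom f M hU hV h) (isIso_xiHom f M hU hV h))

lemma pbSecHom_sigmaIso :
    pbSecHom f M h ≫ (ModuleCat.restrictScalars (f.appLE U V h).hom).map (sigmaIso f M hU hV h).hom =
      (rhoIso M hU).hom ≫ gammaUnit (f.appLE U V h) (M.restrict hU.fromSpec) := by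
  ext x
  have := xiHom_secEquivTop f M hU hV h x
  simp only [ModuleCat.hom_comp, LinearMap.comp_apply]
  exact this

lemma pbSecBC_sigmaIso :
    pbSecBC f M h ≫ (sigmaIso f M hU hV h).hom =
      (ModuleCat.extendScalars (f.appLE U V h).hom).map (rhoIso M hU).hom ≫
        gammaBC (f.appLE U V h) (M.restrict hU.fromSpec) := by
  unfold pbSecBC gammaBC
  rw [← Adjunction.homEquiv_naturality_right_symm, pbSecHom_sigmaIso,
    Adjunction.homEquiv_naturality_left_symm]

include hU hV in
theorem isIso_pbSecBC [M.IsQuasicoherent] : IsIso (pbSecBC f M h) := by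
  have : (M.restrict hU.fromSpec).IsQuasicoherent :=
    Scheme.Modules.isQuasicoherent_restrictFunctor hU.fromSpec M
  have := isIso_gammaBC (f.appLE U V h) (M.restrict hU.fromSpec)
  have h1 : IsIso (pbSecBC f M h ≫ (sigmaIso f M hU hV h).hom) := by
    rw [pbSecBC_sigmaIso]; infer_instance
  exact IsIso.of_isIso_comp_right _ (sigmaIso f M hU hV h).hom


/-! ### Unbundled form -/

/-- `Γ(Y, V)` as an algebra over `Γ(X, U)` via `f.appLE U V h`. -/
@[reducible] noncomputable def algSec (U : X.Opens) (V : Y.Opens) (h : V ≤ f ⁻¹ᵁ U) :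
    Algebra Γ(X, U) Γ(Y, V) :=
  (f.appLE U V h).hom.toAlgebra

/-- Sections over `V` of a module on `Y`, as a module over `Γ(X, U)` via `f.appLE U V h`. -/
@[reducible] noncomputable def modSec (U : X.Opens) (V : Y.Opens) (h : V ≤ f ⁻¹ᵁ U)
    (N : Y.Modules) : Module Γ(X, U) Γ(N, V) :=
  Module.compHom _ (f.appLE U V h).hom

lemma isScalarTower_modSec (U : X.Opens) (V : Y.Opens) (h : V ≤ f ⁻¹ᵁ U) (N : Y.Modules) :
    letI := algSec f U V h
    letI := modSec f U V h N
    IsScalarTower Γ(X, U) Γ(Y, V) Γ(N, V) :=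
  letI := algSec f U V h
  letI := modSec f U V h N
  IsScalarTower.of_algebraMap_smul fun _ _ => rfl

/-- `pbSec` as a `Γ(X, U)`-linear map. -/
noncomputable def pbSecₗ (U : X.Opens) (V : Y.Opens) (h : V ≤ f ⁻¹ᵁ U) :
    letI := modSec f U V h ((Modules.pullback f).obj M)
    Γ(M, U) →ₗ[Γ(X, U)] Γ((Modules.pullback f).obj M, V) :=
  letI := modSec f U V h ((Modules.pullback f).obj M)
  { toFun := pbSec f M U V h
    map_add' := (pbSec f M U V h).map_add
    map_smul' := pbSec_smul f M U V h }

lemma pbSecₗ_apply (U : X.Opens) (V : Y.Opens) (h : V ≤ f ⁻¹ᵁ U) (x : Γ(M, U)) :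
    pbSecₗ f M U V h x = pbSec f M U V h x := rfl

include hU hV in
/-- **Sections of a pullback over affine opens are a base change.** -/
theorem isBaseChange_pbSecₗ [M.IsQuasicoherent] :
    letI := algSec f U V h
    letI := modSec f U V h ((Modules.pullback f).obj M)
    haveI := isScalarTower_modSec f U V h ((Modules.pullback f).obj M)
    IsBaseChange Γ(Y, V) (pbSecₗ f M U V h) := by
  letI := algSec f U V h
  letI := modSec f U V h ((Modules.pullback f).obj M)
  haveI := isScalarTower_modSec f U V h ((Modules.pullback f).obj M)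
  haveI := isIso_pbSecBC f M hU hV h
  exact isBaseChange_of_isIso (N := ModuleCat.of Γ(X, U) Γ(M, U)) (pbSecₗ f M U V h)
    (pbSecBC f M h) (fun m => by
      have e : (ModuleCat.extendRestrictScalarsAdj (f.appLE U V h).hom).homEquiv _ _
          (pbSecBC f M h) = pbSecHom f M h := Equiv.apply_symm_apply _ _
      have := ModuleCat.extendRestrictScalarsAdj_homEquiv_apply (pbSecBC f M h) m
      rw [e] at this
      exact this.symm)

include hU hV in
/-- **Sections of a pullback over affine opens are a base change**, as an explicit equivalence. -/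
theorem exists_equiv_pbSec [M.IsQuasicoherent] :
    letI := algSec f U V h
    ∃ e : Γ(Y, V) ⊗[Γ(X, U)] Γ(M, U) ≃ₗ[Γ(Y, V)] Γ((Modules.pullback f).obj M, V),
      ∀ x : Γ(M, U), e ((1 : Γ(Y, V)) ⊗ₜ[Γ(X, U)] x) = pbSec f M U V h x := by
  letI := algSec f U V h
  letI := modSec f U V h ((Modules.pullback f).obj M)
  haveI := isScalarTower_modSec f U V h ((Modules.pullback f).obj M)
  have hb := isBaseChange_pbSecₗ f M hU hV h
  refine ⟨hb.equiv, fun x => ?_⟩
  rw [IsBaseChange.equiv_tmul, one_smul]
  rfl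

end Fermat.Agent.Jac.PullbackSec70
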