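/-
Fermat/Agent/Jac/PullbackSec70/Gamma2.lean  (helper70)

JAC programme (S25), brick M4b "PullbackGamma2": the sheaf side of `AffineDictionary.baseChange`.
For two-chart covers `𝒰` of `X` and `𝒰'` of `Y`, a morphism `f : Y ⟶ X` with
`𝒰'.U_i ≤ f ⁻¹ᵁ 𝒰.U_i`, and a quasi-coherent module `M` on `X`, the two-chart module of the pullback
`f^* M` is the chartwise base change of the two-chart module of `M` along the ring maps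
`f.appLE : Γ(X, U_i) ⟶ Γ(Y, U_i')` (`gamma2LiftData`).
-/
import Fermat.Agent.Jac.PullbackSec70.Main
import Fermat.Agent.Jac.TwoCoverGammaSetting
import Fermat.Agent.Jac.JSmooth85Alg

set_option autoImplicit false
set_option linter.style.haveILetI false

universe u

open CategoryTheory Limits AlgebraicGeometry TopologicalSpace TensorProduct

namespace Fermat.Agent.Jac.PullbackSec70

open AlgebraicGeometry.Scheme Fermat.Agent.Jac.TwoCoverGammaSetting Fermat.Agent.Jac.JSmooth85Alg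

variable {A A' : Type u} [CommRing A] [CommRing A'] {X Y : Scheme.{u}}
  (𝒰 : TwoCover A X) (𝒰' : TwoCover A' Y) (f : Y ⟶ X)
  (h0 : 𝒰'.U0 ≤ f ⁻¹ᵁ 𝒰.U0) (h1 : 𝒰'.U1 ≤ f ⁻¹ᵁ 𝒰.U1)

include h0 h1 in
lemma cover_inf_le : 𝒰'.U0 ⊓ 𝒰'.U1 ≤ f ⁻¹ᵁ (𝒰.U0 ⊓ 𝒰.U1) :=
  le_inf (inf_le_left.trans h0) (inf_le_right.trans h1)

/-- The overlap of a two-chart cover is affine. -/
lemma isAffineOpen_inf : IsAffineOpen (𝒰.U0 ⊓ 𝒰.U1) := by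
  rw [𝒰.inter0]
  exact 𝒰.affine0.basicOpen 𝒰.t

/-- `Γ(Y, U0')` as an algebra over `Γ(X, U0)` through `f`. -/
@[reducible] noncomputable def algCover0 : Algebra 𝒰.R0 𝒰'.R0 :=
  (f.appLE 𝒰.U0 𝒰'.U0 h0).hom.toAlgebra

/-- `Γ(Y, U1')` as an algebra over `Γ(X, U1)` through `f`. -/
@[reducible] noncomputable def algCover1 : Algebra 𝒰.R1 𝒰'.R1 :=
  (f.appLE 𝒰.U1 𝒰'.U1 h1).hom.toAlgebra

/-- `Γ(Y, U0' ⊓ U1')` as an algebra over `Γ(X, U0 ⊓ U1)` through `f`. -/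
@[reducible] noncomputable def algCover01 : Algebra 𝒰.R01 𝒰'.R01 :=
  (f.appLE (𝒰.U0 ⊓ 𝒰.U1) (𝒰'.U0 ⊓ 𝒰'.U1) (cover_inf_le 𝒰 𝒰' f h0 h1)).hom.toAlgebra

/-- First face of the ring cube: `f.appLE` commutes with restriction to the overlap. -/
theorem cover_hc0 :
    letI := algCover0 𝒰 𝒰' f h0
    letI := algCover01 𝒰 𝒰' f h0 h1
    (algebraMap 𝒰'.R0 𝒰'.R01).comp (algebraMap 𝒰.R0 𝒰'.R0) =
      (algebraMap 𝒰.R01 𝒰'.R01).comp (algebraMap 𝒰.R0 𝒰.R01) := by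
  letI := algCover0 𝒰 𝒰' f h0
  letI := algCover01 𝒰 𝒰' f h0 h1
  have e1 : f.appLE 𝒰.U0 𝒰'.U0 h0 ≫
      Y.presheaf.map (homOfLE (inf_le_left : 𝒰'.U0 ⊓ 𝒰'.U1 ≤ 𝒰'.U0)).op =
      X.presheaf.map (homOfLE (inf_le_left : 𝒰.U0 ⊓ 𝒰.U1 ≤ 𝒰.U0)).op ≫
        f.appLE (𝒰.U0 ⊓ 𝒰.U1) (𝒰'.U0 ⊓ 𝒰'.U1) (cover_inf_le 𝒰 𝒰' f h0 h1) := by
    rw [Scheme.Hom.appLE_map, Scheme.Hom.map_appLE]
  ext x
  exact ConcreteCategory.congr_hom e1 x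

/-- Second face of the ring cube. -/
theorem cover_hc1 :
    letI := algCover1 𝒰 𝒰' f h1
    letI := algCover01 𝒰 𝒰' f h0 h1
    (algebraMap 𝒰'.R1 𝒰'.R01).comp (algebraMap 𝒰.R1 𝒰'.R1) =
      (algebraMap 𝒰.R01 𝒰'.R01).comp (algebraMap 𝒰.R1 𝒰.R01) := by
  letI := algCover1 𝒰 𝒰' f h1
  letI := algCover01 𝒰 𝒰' f h0 h1
  have e1 : f.appLE 𝒰.U1 𝒰'.U1 h1 ≫
      Y.presheaf.map (homOfLE (inf_le_right : 𝒰'.U0 ⊓ 𝒰'.U1 ≤ 𝒰'.U1)).op =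
      X.presheaf.map (homOfLE (inf_le_right : 𝒰.U0 ⊓ 𝒰.U1 ≤ 𝒰.U1)).op ≫
        f.appLE (𝒰.U0 ⊓ 𝒰.U1) (𝒰'.U0 ⊓ 𝒰'.U1) (cover_inf_le 𝒰 𝒰' f h0 h1) := by
    rw [Scheme.Hom.appLE_map, Scheme.Hom.map_appLE]
  ext x
  exact ConcreteCategory.congr_hom e1 x

section Equiv

variable {X Y : Scheme.{u}} (f : Y ⟶ X) (M : X.Modules) [M.IsQuasicoherent] {U : X.Opens}
  {V : Y.Opens} (hU : IsAffineOpen U) (hV : IsAffineOpen V) (h : V ≤ f ⁻¹ᵁ U)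

/-- The base change isomorphism `Γ(Y, V) ⊗[Γ(X, U)] Γ(M, U) ≃ Γ(f^* M, V)` for affine opens
`V ≤ f ⁻¹ᵁ U` and quasi-coherent `M`. -/
noncomputable def pbSecEquiv :
    letI := algSec f U V h
    Γ(Y, V) ⊗[Γ(X, U)] Γ(M, U) ≃ₗ[Γ(Y, V)] Γ((Modules.pullback f).obj M, V) :=
  letI := algSec f U V h
  letI := modSec f U V h ((Modules.pullback f).obj M)
  haveI := isScalarTower_modSec f U V h ((Modules.pullback f).obj M)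
  (isBaseChange_pbSecₗ f M hU hV h).equiv

lemma pbSecEquiv_tmul (s : Γ(Y, V)) (x : Γ(M, U)) :
    letI := algSec f U V h
    pbSecEquiv f M hU hV h (s ⊗ₜ[Γ(X, U)] x) = s • pbSec f M U V h x := by
  letI := algSec f U V h
  letI := modSec f U V h ((Modules.pullback f).obj M)
  haveI := isScalarTower_modSec f U V h ((Modules.pullback f).obj M)
  exact (isBaseChange_pbSecₗ f M hU hV h).equiv_tmul s x

lemma pbSecEquiv_one_tmul (x : Γ(M, U)) :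
    letI := algSec f U V h
    pbSecEquiv f M hU hV h ((1 : Γ(Y, V)) ⊗ₜ[Γ(X, U)] x) = pbSec f M U V h x := by
  letI := algSec f U V h
  rw [pbSecEquiv_tmul, one_smul]

end Equiv

variable (M : X.Modules) [M.IsQuasicoherent]

/-- **The two-chart module of a pullback is the chartwise base change.** -/
noncomputable def gamma2LiftData (hM : 𝒰.IsQC M)
    (hM' : 𝒰'.IsQC ((Modules.pullback f).obj M)) :
    letI := algCover0 𝒰 𝒰' f h0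
    letI := algCover1 𝒰 𝒰' f h1
    letI := algCover01 𝒰 𝒰' f h0 h1
    LiftData (𝒰.Gamma2 M hM) (𝒰'.Gamma2 ((Modules.pullback f).obj M) hM') :=
  letI := algCover0 𝒰 𝒰' f h0
  letI := algCover1 𝒰 𝒰' f h1
  letI := algCover01 𝒰 𝒰' f h0 h1
  { e0 := pbSecEquiv f M 𝒰.affine0 𝒰'.affine0 h0
    e1 := pbSecEquiv f M 𝒰.affine1 𝒰'.affine1 h1
    e01 := pbSecEquiv f M (isAffineOpen_inf 𝒰) (isAffineOpen_inf 𝒰') (cover_inf_le 𝒰 𝒰' f h0 h1)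
    comm0 := fun x => by
      have e1 := pbSecEquiv_one_tmul f M (isAffineOpen_inf 𝒰) (isAffineOpen_inf 𝒰')
        (cover_inf_le 𝒰 𝒰' f h0 h1)
        (M.presheaf.map (homOfLE (inf_le_left : 𝒰.U0 ⊓ 𝒰.U1 ≤ 𝒰.U0)).op x)
      have e2 := pbSecEquiv_one_tmul f M 𝒰.affine0 𝒰'.affine0 h0 x
      have e3 := pbSec_res f M h0 (cover_inf_le 𝒰 𝒰' f h0 h1)
        (homOfLE (inf_le_left : 𝒰.U0 ⊓ 𝒰.U1 ≤ 𝒰.U0))
        (homOfLE (inf_le_left : 𝒰'.U0 ⊓ 𝒰'.U1 ≤ 𝒰'.U0)) x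
      exact e1.trans (e3.trans (congrArg _ e2.symm))
    comm1 := fun x => by
      have e1 := pbSecEquiv_one_tmul f M (isAffineOpen_inf 𝒰) (isAffineOpen_inf 𝒰')
        (cover_inf_le 𝒰 𝒰' f h0 h1)
        (M.presheaf.map (homOfLE (inf_le_right : 𝒰.U0 ⊓ 𝒰.U1 ≤ 𝒰.U1)).op x)
      have e2 := pbSecEquiv_one_tmul f M 𝒰.affine1 𝒰'.affine1 h1 x
      have e3 := pbSec_res f M h1 (cover_inf_le 𝒰 𝒰' f h0 h1)
        (homOfLE (inf_le_right : 𝒰.U0 ⊓ 𝒰.U1 ≤ 𝒰.U1))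
        (homOfLE (inf_le_right : 𝒰'.U0 ⊓ 𝒰'.U1 ≤ 𝒰'.U1)) x
      exact e1.trans (e3.trans (congrArg _ e2.symm)) }

lemma gamma2LiftData_e0_tmul (hM : 𝒰.IsQC M) (hM' : 𝒰'.IsQC ((Modules.pullback f).obj M))
    (s : 𝒰'.R0) (x : 𝒰.N0 M) :
    letI := algCover0 𝒰 𝒰' f h0
    letI := algCover1 𝒰 𝒰' f h1
    letI := algCover01 𝒰 𝒰' f h0 h1
    (gamma2LiftData 𝒰 𝒰' f h0 h1 M hM hM').e0 (s ⊗ₜ[𝒰.R0] x) =
      s • (show 𝒰'.N0 ((Modules.pullback f).obj M) from pbSec f M 𝒰.U0 𝒰'.U0 h0 x) :=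
  pbSecEquiv_tmul f M 𝒰.affine0 𝒰'.affine0 h0 s x

lemma gamma2LiftData_e1_tmul (hM : 𝒰.IsQC M) (hM' : 𝒰'.IsQC ((Modules.pullback f).obj M))
    (s : 𝒰'.R1) (x : 𝒰.N1 M) :
    letI := algCover0 𝒰 𝒰' f h0
    letI := algCover1 𝒰 𝒰' f h1
    letI := algCover01 𝒰 𝒰' f h0 h1
    (gamma2LiftData 𝒰 𝒰' f h0 h1 M hM hM').e1 (s ⊗ₜ[𝒰.R1] x) =
      s • (show 𝒰'.N1 ((Modules.pullback f).obj M) from pbSec f M 𝒰.U1 𝒰'.U1 h1 x) :=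
  pbSecEquiv_tmul f M 𝒰.affine1 𝒰'.affine1 h1 s x

lemma gamma2LiftData_e01_tmul (hM : 𝒰.IsQC M) (hM' : 𝒰'.IsQC ((Modules.pullback f).obj M))
    (s : 𝒰'.R01) (x : 𝒰.N01 M) :
    letI := algCover0 𝒰 𝒰' f h0
    letI := algCover1 𝒰 𝒰' f h1
    letI := algCover01 𝒰 𝒰' f h0 h1
    (gamma2LiftData 𝒰 𝒰' f h0 h1 M hM hM').e01 (s ⊗ₜ[𝒰.R01] x) =
      s • (show 𝒰'.N01 ((Modules.pullback f).obj M) from
        pbSec f M (𝒰.U0 ⊓ 𝒰.U1) (𝒰'.U0 ⊓ 𝒰'.U1) (cover_inf_le 𝒰 𝒰' f h0 h1) x) :=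
  pbSecEquiv_tmul f M (isAffineOpen_inf 𝒰) (isAffineOpen_inf 𝒰') (cover_inf_le 𝒰 𝒰' f h0 h1) s x

end Fermat.Agent.Jac.PullbackSec70
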